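/-
S28 (Igusa), package M1(d), helper26: basic lemmas on `qScale`, `jS` (from `Defs.lean`) and on the
range of the coefficientwise map `coeffMap` of Laurent series.
-/
import Fermat.Agent.S28.Defs
import Fermat.Prelude.Def_ModularCurve_X0ModL

set_option autoImplicit false

noncomputable section

open HahnSeries ModularCurve

namespace Fermat.Agent.S28.H26

open Fermat.Agent.S28

section Scale

variable {R : Type*} [CommRing R]

theorem qScale_one_apply (f : LaurentSeries R) : qScale (1 : Rˣ) f = f := by
  ext n
  simp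

/-- `qScale` commutes with coefficientwise maps. -/
theorem coeffMap_qScale {S : Type*} [CommRing S] (φ : R →+* S) (u : Rˣ) (f : LaurentSeries R) :
    coeffMap φ (qScale u f) = qScale (Units.map (φ : R →* S) u) (coeffMap φ f) := by
  ext n
  simp only [coeffMap_coeff, qScale_coeff, map_mul]
  congr 1
  rw [← map_zpow]
  rfl

/-- `j(q^k)` for `k ≠ 0`, in terms of the Prelude's `qExpand`. -/
theorem jS_one_left (k : ℕ) [NeZero k] : jS R 1 k = qExpand R k (jqModC R) := by
  rw [jS, qSub_apply, qScale_one_apply, vq_eq_qExpand]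

/-- `j(c q)`. -/
theorem jS_right_one (c : Rˣ) : jS R c 1 = qScale c (jqModC R) := by
  rw [jS, qSub_apply, vq_eq_qExpand, qExpand_one_apply]

theorem coeffMap_jS_one_left {S : Type*} [CommRing S] (φ : R →+* S) (k : ℕ) [NeZero k] :
    coeffMap φ (jS R 1 k) = jS S 1 k := by
  rw [jS_one_left, jS_one_left, coeffMap_qExpand, coeffMap_jqModC]

theorem coeffMap_jS_right_one {S : Type*} [CommRing S] (φ : R →+* S) (c : Rˣ) :
    coeffMap φ (jS R c 1) = jS S (Units.map (φ : R →* S) c) 1 := by
  rw [jS_right_one, jS_right_one, coeffMap_qScale, coeffMap_jqModC]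

/-- Leading coefficient of powers of `j(q^k)`. -/
theorem coeff_jS_one_pow_self (k : ℕ) [NeZero k] (n : ℕ) :
    ((jS R 1 k) ^ n).coeff (-((k : ℤ) * n)) = 1 := by
  rw [jS_one_left, ← map_pow, show -((k : ℤ) * n) = (k : ℤ) * (-(n : ℤ)) by ring,
    qExpand_coeff_mul, coeff_jqModC_pow_self]

/-- Vanishing of the coefficients of powers of `j(q^k)` below the leading term. -/
theorem coeff_jS_one_pow_of_lt (k : ℕ) [NeZero k] (n : ℕ) {m : ℤ} (hm : m < -((k : ℤ) * n)) :
    ((jS R 1 k) ^ n).coeff m = 0 := by
  rw [jS_one_left, ← map_pow]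
  by_cases hd : (k : ℤ) ∣ m
  · obtain ⟨m', rfl⟩ := hd
    rw [qExpand_coeff_mul]
    refine coeff_jqModC_pow_of_lt R ?_
    have hk : (0 : ℤ) < k := by exact_mod_cast Nat.pos_of_ne_zero (NeZero.ne k)
    by_contra hcon
    rw [not_lt] at hcon
    have := mul_le_mul_of_nonneg_left hcon hk.le
    linarith
  · exact qExpand_coeff_of_not_dvd k _ hd

end Scale

section Range

variable {A B : Type*} [CommRing A] [CommRing B]

/-- A Laurent series lies in the range of `coeffMap φ` iff all its coefficients lie in the range
of `φ`. -/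
theorem mem_range_coeffMap_iff (φ : A →+* B) (f : LaurentSeries B) :
    f ∈ (coeffMap φ).range ↔ ∀ k : ℤ, f.coeff k ∈ φ.range := by
  classical
  constructor
  · rintro ⟨g, rfl⟩ k
    exact ⟨g.coeff k, rfl⟩
  · intro h
    choose a ha using h
    refine ⟨⟨fun k => if f.coeff k = 0 then 0 else a k, f.isPWO_support.mono ?_⟩, ?_⟩
    · intro k hk
      simp only [Function.mem_support, ne_eq] at hk
      simp only [HahnSeries.mem_support, ne_eq]
      intro h0
      exact hk (if_pos h0)
    · ext k
      rw [coeffMap_coeff]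
      show φ (if f.coeff k = 0 then 0 else a k) = f.coeff k
      split_ifs with h0
      · rw [map_zero, h0]
      · exact ha k

theorem coeffMap_injective {φ : A →+* B} (hφ : Function.Injective φ) :
    Function.Injective (coeffMap φ) := by
  intro f g h
  ext k
  apply hφ
  have := congrArg (fun x => x.coeff k) h
  simpa using this

end Range

end Fermat.Agent.S28.H26
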