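/-
S28 (Igusa), package M1(d1), helper26: for a Laurent series `g` with integer coefficients and an
`n`-th root of unity `ζ` in a field `L` of characteristic zero, the polynomial
`∏_{b < n} (X - g(ζ^b q))` has coefficients in `ℤ((q))`.

Proof: the power sums of the roots are integral (orthogonality of roots of unity), hence by
Newton's identities the elementary symmetric functions are rational; they are also algebraic
integers coefficientwise; hence integers.
-/
import Fermat.Agent.S28.H26.Basic

set_option autoImplicit false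

noncomputable section

open HahnSeries ModularCurve Polynomial Fermat.Agent.S28

namespace Fermat.Agent.S28.H26

section General

/-- Elementary symmetric functions of elements of a subring lie in the subring. -/
theorem multiset_esymm_mem {R : Type*} [CommRing R] (T : Subring R) (s : Multiset R)
    (hs : ∀ x ∈ s, x ∈ T) (k : ℕ) : s.esymm k ∈ T := by
  rw [Multiset.esymm]
  refine T.multiset_sum_mem _ ?_
  intro x hx
  rw [Multiset.mem_map] at hx
  obtain ⟨t, ht, rfl⟩ := hx
  refine T.multiset_prod_mem _ ?_
  intro y hy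
  exact hs y (Multiset.mem_of_le (Multiset.mem_powersetCard.mp ht).1 hy)

end General

variable {L : Type*} [Field L]

/-- Orthogonality: the sum of the twists of a series defined over a subring `A` by the powers of an
`n`-th root of unity is again defined over `A`. -/
theorem sum_twist_mem_range {A : Type*} [CommRing A] (φ : A →+* L) (n : ℕ) (ζ : Lˣ)
    (hζ : ζ ^ n = 1) (h : LaurentSeries A) :
    ∑ b ∈ Finset.range n, qScale (ζ ^ b) (coeffMap φ h) ∈ (coeffMap φ).range := by
  rw [mem_range_coeffMap_iff]
  intro k
  have hc : (∑ b ∈ Finset.range n, qScale (ζ ^ b) (coeffMap φ h)).coeff k =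
      (∑ b ∈ Finset.range n, ((ζ ^ k : Lˣ) : L) ^ b) * φ (h.coeff k) := by
    rw [← HahnSeries.coeff.addMonoidHom_apply, map_sum, Finset.sum_mul]
    refine Finset.sum_congr rfl fun b _ => ?_
    rw [HahnSeries.coeff.addMonoidHom_apply, qScale_coeff, coeffMap_coeff]
    congr 1
    rw [← Units.val_pow_eq_pow_val]
    congr 1
    rw [← zpow_natCast, ← zpow_natCast, ← zpow_mul, ← zpow_mul, mul_comm]
  rw [hc]
  refine Subring.mul_mem _ ?_ ⟨h.coeff k, rfl⟩
  set x : L := ((ζ ^ k : Lˣ) : L) with hx
  have hxn : x ^ n = 1 := by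
    rw [hx, ← Units.val_pow_eq_pow_val, ← zpow_natCast, ← zpow_mul, mul_comm, zpow_mul,
      zpow_natCast, hζ, one_zpow, Units.val_one]
  by_cases h1 : x = 1
  · rw [h1]
    simp only [one_pow, Finset.sum_const, Finset.card_range, nsmul_eq_mul, mul_one]
    exact ⟨(n : A), map_natCast φ n⟩
  · have hgeo := geom_sum_mul x n
    rw [hxn, sub_self] at hgeo
    have : ∑ b ∈ Finset.range n, x ^ b = 0 := by
      rcases mul_eq_zero.mp hgeo with h0 | h0
      · exact h0
      · exact absurd (sub_eq_zero.mp h0) h1
    rw [this]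
    exact Subring.zero_mem _

section Newton

variable [CharZero L]

/-- Newton's identities: if all power sums of a finite family of Laurent series are defined over
`ℚ`, so are its elementary symmetric functions. -/
theorem esymm_mem_ratRange {n : ℕ} (s : Fin n → LaurentSeries L)
    (hps : ∀ m : ℕ, 0 < m → ∑ i, s i ^ m ∈ (coeffMap (algebraMap ℚ L)).range) (k : ℕ) :
    (Finset.univ.val.map s).esymm k ∈ (coeffMap (algebraMap ℚ L)).range := by
  induction k using Nat.strong_induction_on with
  | _ k ih =>
    rcases Nat.eq_zero_or_pos k with rfl | hk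
    · have h0 : (Finset.univ.val.map s).esymm 0 = 1 := by simp [Multiset.esymm]
      rw [h0]
      exact Subring.one_mem _
    · have hN := congrArg (MvPolynomial.aeval s) (MvPolynomial.mul_esymm_eq_sum (Fin n) ℤ k)
      simp only [map_mul, map_natCast, MvPolynomial.aeval_esymm_eq_multiset_esymm, map_pow,
        map_neg, map_one, map_sum, MvPolynomial.psum, MvPolynomial.aeval_X] at hN
      have hmem : (k : LaurentSeries L) * (Finset.univ.val.map s).esymm k ∈
          (coeffMap (algebraMap ℚ L)).range := by
        rw [hN]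
        refine Subring.mul_mem _ (Subring.pow_mem _ (Subring.neg_mem _ (Subring.one_mem _)) _) ?_
        refine Subring.sum_mem _ fun a ha => ?_
        rw [Finset.mem_filter, Finset.HasAntidiagonal.mem_antidiagonal] at ha
        refine Subring.mul_mem _ (Subring.mul_mem _
          (Subring.pow_mem _ (Subring.neg_mem _ (Subring.one_mem _)) _) (ih a.1 ha.2)) ?_
        exact hps a.2 (by omega)
      have hk0 : (k : L) ≠ 0 := Nat.cast_ne_zero.mpr hk.ne'
      have hC : (HahnSeries.C ((k : L)⁻¹) : LaurentSeries L) ∈
          (coeffMap (algebraMap ℚ L)).range := by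
        refine ⟨HahnSeries.C ((k : ℚ)⁻¹), ?_⟩
        rw [HahnSeries.C_apply, coeffMap_single, HahnSeries.C_apply]
        simp
      have heq : (Finset.univ.val.map s).esymm k =
          (HahnSeries.C ((k : L)⁻¹) : LaurentSeries L) *
            ((k : LaurentSeries L) * (Finset.univ.val.map s).esymm k) := by
        rw [← mul_assoc, ← map_natCast (HahnSeries.C : L →+* LaurentSeries L) k, ← map_mul,
          inv_mul_cancel₀ hk0, map_one, one_mul]
      rw [heq]
      exact Subring.mul_mem _ hC hmem

end Newton

section Integral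

/-- A series that is defined over `ℚ` and whose coefficients are algebraic integers is defined
over `ℤ`. -/
theorem mem_intRange_of_rat_of_isIntegral [CharZero L] (f : LaurentSeries L)
    (h1 : f ∈ (coeffMap (algebraMap ℚ L)).range) (h2 : ∀ k, IsIntegral ℤ (f.coeff k)) :
    f ∈ (coeffMap (Int.castRingHom L)).range := by
  rw [mem_range_coeffMap_iff] at h1 ⊢
  intro k
  obtain ⟨r, hr⟩ := h1 k
  have hint : IsIntegral ℤ r := by
    have := h2 k
    rw [← hr] at this
    exact (isIntegral_algebraMap_iff (algebraMap ℚ L).injective).mp this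
  obtain ⟨z, hz⟩ := IsIntegrallyClosed.isIntegral_iff.mp hint
  refine ⟨z, ?_⟩
  rw [← hr, ← hz]
  simp

/-- The subring of Laurent series all of whose coefficients are algebraic integers. -/
theorem mem_integralRange_iff (f : LaurentSeries L) :
    f ∈ (coeffMap (algebraMap (integralClosure ℤ L) L)).range ↔
      ∀ k, IsIntegral ℤ (f.coeff k) := by
  rw [mem_range_coeffMap_iff]
  refine forall_congr' fun k => ?_
  constructor
  · rintro ⟨a, ha⟩
    rw [← ha]
    exact a.2
  · intro h
    exact ⟨⟨f.coeff k, h⟩, rfl⟩

/-- **Integrality of the norm polynomial.** For `g ∈ ℤ((q))` and an `n`-th root of unity `ζ` in a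
field of characteristic zero, the polynomial `∏_{b<n} (X - g(ζ^b q))` has coefficients in
`ℤ((q))`. -/
theorem prod_X_sub_C_twist_mem_lifts [CharZero L] (n : ℕ) (ζ : Lˣ) (hζ : ζ ^ n = 1) (g : LaurentSeries ℤ) :
    ∏ b ∈ Finset.range n, (X - Polynomial.C (qScale (ζ ^ b) (coeffMap (Int.castRingHom L) g))) ∈
      Polynomial.lifts (coeffMap (Int.castRingHom L)) := by
  classical
  rcases Nat.eq_zero_or_pos n with rfl | hn
  · rw [Finset.range_zero, Finset.prod_empty]
    exact (Polynomial.lifts_iff_coeff_lifts _).mpr fun k => by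
      rw [Polynomial.coeff_one]
      split_ifs
      · exact ⟨1, map_one _⟩
      · exact ⟨0, map_zero _⟩
  set ι : ℤ →+* L := Int.castRingHom L with hι
  set s : Fin n → LaurentSeries L := fun b => qScale (ζ ^ (b : ℕ)) (coeffMap ι g) with hs
  have hprod : ∏ b ∈ Finset.range n, (X - Polynomial.C (qScale (ζ ^ b) (coeffMap ι g))) =
      ((Finset.univ.val.map s).map fun t => X - Polynomial.C t).prod := by
    rw [← Fin.prod_univ_eq_prod_range (fun b => X - Polynomial.C (qScale (ζ ^ b) (coeffMap ι g))) n,
      Finset.prod_eq_multiset_prod, Multiset.map_map]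
    rfl
  have hcard : Multiset.card (Finset.univ.val.map s) = n := by simp
  -- the rational subring contains the integral one
  have hιℚ : ι = (algebraMap ℚ L).comp (Int.castRingHom ℚ) := RingHom.ext_int _ _
  have hsub : ∀ f : LaurentSeries L, f ∈ (coeffMap ι).range →
      f ∈ (coeffMap (algebraMap ℚ L)).range := by
    rintro f ⟨f₀, rfl⟩
    exact ⟨coeffMap (Int.castRingHom ℚ) f₀, by rw [coeffMap_coeffMap, ← hιℚ]⟩
  -- power sums
  have hps : ∀ m : ℕ, 0 < m → ∑ i, s i ^ m ∈ (coeffMap (algebraMap ℚ L)).range := by
    intro m _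
    apply hsub
    have h1 : ∑ i, s i ^ m = ∑ b ∈ Finset.range n, qScale (ζ ^ b) (coeffMap ι (g ^ m)) := by
      rw [← Fin.sum_univ_eq_sum_range (fun b => qScale (ζ ^ b) (coeffMap ι (g ^ m))) n]
      refine Finset.sum_congr rfl fun i _ => ?_
      rw [hs, map_pow, map_pow]
    rw [h1]
    exact sum_twist_mem_range ι n ζ hζ (g ^ m)
  -- the roots have algebraic integer coefficients
  have hint : ∀ x ∈ Finset.univ.val.map s,
      x ∈ (coeffMap (algebraMap (integralClosure ℤ L) L)).range := by
    intro x hx
    rw [Multiset.mem_map] at hx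
    obtain ⟨b, -, rfl⟩ := hx
    rw [mem_integralRange_iff]
    intro k
    rw [hs, qScale_coeff, coeffMap_coeff]
    refine IsIntegral.mul ?_ ?_
    · refine IsIntegral.of_pow hn ?_
      have : (((ζ ^ (b : ℕ)) ^ k : Lˣ) : L) ^ n = 1 := by
        rw [← Units.val_pow_eq_pow_val, ← zpow_natCast, ← zpow_mul, mul_comm, zpow_mul,
          zpow_natCast, ← pow_mul, mul_comm, pow_mul, hζ, one_pow, one_zpow, Units.val_one]
      rw [this]
      exact isIntegral_one
    · exact isIntegral_algebraMap (R := ℤ) (A := L) (x := g.coeff k)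
  -- elementary symmetric functions are integral
  have hes : ∀ j, (Finset.univ.val.map s).esymm j ∈ (coeffMap ι).range := by
    intro j
    refine mem_intRange_of_rat_of_isIntegral _ (esymm_mem_ratRange s hps j) ?_
    exact (mem_integralRange_iff _).mp (multiset_esymm_mem _ _ hint j)
  rw [hprod]
  refine (Polynomial.lifts_iff_coeff_lifts _).mpr fun k => ?_
  by_cases hk : k ≤ n
  · rw [Multiset.prod_X_sub_C_coeff _ (by rw [hcard]; exact hk)]
    exact Subring.mul_mem _ (Subring.pow_mem _ (Subring.neg_mem _ (Subring.one_mem _)) _) (hes _)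
  · rw [Polynomial.coeff_eq_zero_of_natDegree_lt]
    · exact ⟨0, map_zero _⟩
    · rw [Polynomial.natDegree_multiset_prod_X_sub_C_eq_card, hcard]
      omega

/-- Monic version with explicit lift. -/
theorem exists_monic_lift_prod_X_sub_C_twist [CharZero L] (n : ℕ) (ζ : Lˣ) (hζ : ζ ^ n = 1)
    (g : LaurentSeries ℤ) :
    ∃ P : Polynomial (LaurentSeries ℤ), P.Monic ∧ P.natDegree = n ∧
      P.map (coeffMap (Int.castRingHom L)) =
        ∏ b ∈ Finset.range n, (X - Polynomial.C (qScale (ζ ^ b) (coeffMap (Int.castRingHom L) g))) := by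
  have hmonic : (∏ b ∈ Finset.range n,
      (X - Polynomial.C (qScale (ζ ^ b) (coeffMap (Int.castRingHom L) g)))).Monic :=
    Polynomial.monic_prod_of_monic _ _ fun b _ => Polynomial.monic_X_sub_C _
  obtain ⟨P, hP, hdeg, hPm⟩ := Polynomial.lifts_and_natDegree_eq_and_monic
    (prod_X_sub_C_twist_mem_lifts n ζ hζ g) hmonic
  refine ⟨P, hPm, ?_, hP⟩
  rw [hdeg, Polynomial.natDegree_prod_of_monic _ _ fun b _ => Polynomial.monic_X_sub_C _]
  simp

end Integral

end Fermat.Agent.S28.H26
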