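/-
S28 (Igusa), package M1(d2), helper26: triangularity.  If `t₀ ∈ A((q))` has a pole of exact order
`m > 0` with leading coefficient `1` (in the sense that `t₀ ^ n = q^(-m n) + higher terms` for all
`n`), and `c ∈ B[Y]` is a polynomial such that `c(t)` is defined over `A` (`t` the image of `t₀`
under `φ : A → B`), then `c` is defined over `A`.
-/
import Fermat.Agent.S28.H26.Basic

set_option autoImplicit false

noncomputable section

open HahnSeries ModularCurve Fermat.Agent.S28

namespace Fermat.Agent.S28.H26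

variable {A B : Type*} [CommRing A] [CommRing B]

theorem coeffMap_C (φ : A →+* B) (a : A) :
    coeffMap φ (HahnSeries.C a : LaurentSeries A) = HahnSeries.C (φ a) := by
  rw [HahnSeries.C_apply, coeffMap_single, HahnSeries.C_apply]

theorem mem_lifts_of_eval₂_mem_range (φ : A →+* B) (t₀ : LaurentSeries A) (m : ℕ) (hm : 0 < m)
    (h1 : ∀ n : ℕ, (t₀ ^ n).coeff (-((m : ℤ) * n)) = 1)
    (h2 : ∀ (n : ℕ) (k : ℤ), k < -((m : ℤ) * n) → (t₀ ^ n).coeff k = 0)
    (c : Polynomial B)
    (hc : c.eval₂ (HahnSeries.C : B →+* LaurentSeries B) (coeffMap φ t₀) ∈ (coeffMap φ).range) :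
    c ∈ Polynomial.lifts φ := by
  induction' hd : c.natDegree using Nat.strong_induction_on with d ih generalizing c
  by_cases hc0 : c = 0
  · subst hc0
    exact Subsemiring.zero_mem _
  have hpow : ∀ (i : ℕ) (k : ℤ), ((coeffMap φ t₀) ^ i).coeff k = φ ((t₀ ^ i).coeff k) := by
    intro i k
    rw [← map_pow, coeffMap_coeff]
  have hlead : (c.eval₂ (HahnSeries.C : B →+* LaurentSeries B) (coeffMap φ t₀)).coeff
      (-((m : ℤ) * d)) = c.leadingCoeff := by
    rw [Polynomial.eval₂_eq_sum_range, ← HahnSeries.coeff.addMonoidHom_apply, map_sum, hd,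
      Finset.sum_eq_single d]
    · rw [HahnSeries.coeff.addMonoidHom_apply, HahnSeries.C_mul_eq_smul, HahnSeries.coeff_smul,
        hpow, h1, map_one, smul_eq_mul, mul_one, Polynomial.leadingCoeff, hd]
    · intro i hi hid
      have hid' : i < d := lt_of_le_of_ne (Nat.lt_succ_iff.mp (Finset.mem_range.mp hi)) hid
      rw [HahnSeries.coeff.addMonoidHom_apply, HahnSeries.C_mul_eq_smul, HahnSeries.coeff_smul,
        hpow, h2, map_zero, smul_zero]
      have hm' : (0 : ℤ) < m := by exact_mod_cast hm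
      have : (i : ℤ) < d := by exact_mod_cast hid'
      nlinarith
    · intro h
      exact absurd (Finset.mem_range.mpr (Nat.lt_succ_self d)) h
  obtain ⟨a₀, ha₀⟩ : c.leadingCoeff ∈ φ.range := by
    rw [← hlead]
    exact (mem_range_coeffMap_iff φ _).mp hc _
  have hdecomp := Polynomial.eraseLead_add_monomial_natDegree_leadingCoeff c
  have hc' : c.eraseLead.eval₂ (HahnSeries.C : B →+* LaurentSeries B) (coeffMap φ t₀) ∈
      (coeffMap φ).range := by
    have h3 : c.eraseLead.eval₂ (HahnSeries.C : B →+* LaurentSeries B) (coeffMap φ t₀) =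
        c.eval₂ (HahnSeries.C : B →+* LaurentSeries B) (coeffMap φ t₀) -
          coeffMap φ (HahnSeries.C a₀ * t₀ ^ d) := by
      conv_rhs => rw [← hdecomp]
      rw [Polynomial.eval₂_add, Polynomial.eval₂_monomial, map_mul, map_pow, coeffMap_C, ha₀, hd]
      ring
    rw [h3]
    exact Subring.sub_mem _ hc ⟨_, rfl⟩
  have hlift' : c.eraseLead ∈ Polynomial.lifts φ := by
    rcases Polynomial.eraseLead_natDegree_lt_or_eraseLead_eq_zero c with hlt | h0
    · exact ih _ (hd ▸ hlt) _ hc' rfl
    · rw [h0]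
      exact Subsemiring.zero_mem _
  rw [← hdecomp]
  exact Subsemiring.add_mem _ hlift' (Polynomial.monomial_mem_lifts _ ⟨a₀, ha₀⟩)

end Fermat.Agent.S28.H26
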