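/-
S28 (Igusa), package M1(d), helper26: integrality of the complex modular polynomial and transfer
of the factorisation property `ModPolyFact` from `ℂ` to every commutative ring containing a root
of the `p`-th cyclotomic polynomial.

Main results:
* `exists_int_of_fact` : a polynomial `Φc ∈ L[Y][X]` (`L` a field of characteristic zero) that
  satisfies the factorisation identity over `L` has integer coefficients.
* `modPolyFact_of_cyclotomic_root` : transfer to any commutative ring.
* `isModPoly_of_complex` : the skeleton statement M1b.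
-/
import Fermat.Agent.S28.H26.Integrality
import Fermat.Agent.S28.H26.Triangular

set_option autoImplicit false

noncomputable section

open HahnSeries ModularCurve Polynomial Fermat.Agent.S28

namespace Fermat.Agent.S28.H26

section Map

variable {A B : Type*} [CommRing A] [CommRing B]

/-- Compatibility of `evalY` with coefficient maps. -/
theorem map_coeffMap_evalY (ψ : A →+* B) (y : LaurentSeries A) (Φ : Polynomial (Polynomial ℤ)) :
    (evalY y Φ).map (coeffMap ψ) = evalY (coeffMap ψ y) Φ := by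
  unfold evalY
  rw [Polynomial.coe_mapRingHom, Polynomial.coe_mapRingHom, Polynomial.map_map]
  congr 1
  refine Polynomial.ringHom_ext (fun a => ?_) ?_
  · simp
  · simp

/-- The right-hand side of the factorisation, over `A`. -/
def factRHS (p : ℕ) (A : Type*) [CommRing A] (ζ : Aˣ) : Polynomial (LaurentSeries A) :=
  (X - Polynomial.C (jS A 1 (p * p))) * ∏ b ∈ Finset.range p, (X - Polynomial.C (jS A (ζ ^ b) 1))

theorem modPolyFact_iff (p : ℕ) (Φ : Polynomial (Polynomial ℤ)) (ζ : Aˣ) :
    ModPolyFact p Φ A ζ ↔ evalY (jS A 1 p) Φ = factRHS p A ζ := Iff.rfl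

theorem map_coeffMap_factRHS (p : ℕ) [NeZero p] (ψ : A →+* B) (ζ : Aˣ) :
    (factRHS p A ζ).map (coeffMap ψ) = factRHS p B (Units.map (ψ : A →* B) ζ) := by
  unfold factRHS
  rw [Polynomial.map_mul, Polynomial.map_sub, Polynomial.map_X, Polynomial.map_C,
    Polynomial.map_prod, coeffMap_jS_one_left]
  congr 1
  refine Finset.prod_congr rfl fun b _ => ?_
  rw [Polynomial.map_sub, Polynomial.map_X, Polynomial.map_C, coeffMap_jS_right_one, map_pow]

/-- The factorisation property is preserved by ring homomorphisms. -/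
theorem ModPolyFact.map {p : ℕ} [NeZero p] {Φ : Polynomial (Polynomial ℤ)} (ψ : A →+* B) {ζ : Aˣ}
    (h : ModPolyFact p Φ A ζ) : ModPolyFact p Φ B (Units.map (ψ : A →* B) ζ) := by
  rw [modPolyFact_iff] at h ⊢
  rw [← coeffMap_jS_one_left ψ, ← map_coeffMap_evalY, h, map_coeffMap_factRHS]

/-- The factorisation property is reflected by injective ring homomorphisms. -/
theorem ModPolyFact.of_map_injective {p : ℕ} [NeZero p] {Φ : Polynomial (Polynomial ℤ)}
    (ψ : A →+* B) (hψ : Function.Injective ψ) {ζ : Aˣ}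
    (h : ModPolyFact p Φ B (Units.map (ψ : A →* B) ζ)) : ModPolyFact p Φ A ζ := by
  rw [modPolyFact_iff] at h ⊢
  apply Polynomial.map_injective (coeffMap ψ) (coeffMap_injective hψ)
  rw [map_coeffMap_evalY, coeffMap_jS_one_left, h, map_coeffMap_factRHS]

end Map

section Universal

/-- The universal ring with a root of the `p`-th cyclotomic polynomial. -/
abbrev CycRing (p : ℕ) : Type := AdjoinRoot (cyclotomic p ℤ)

theorem cycRing_root_pow (p : ℕ) : (AdjoinRoot.root (cyclotomic p ℤ)) ^ p = 1 := by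
  have h : (AdjoinRoot.mk (cyclotomic p ℤ)) (X ^ p - 1) = 0 :=
    AdjoinRoot.mk_eq_zero.mpr (cyclotomic.dvd_X_pow_sub_one p ℤ)
  rw [map_sub, map_pow, AdjoinRoot.mk_X, map_one, sub_eq_zero] at h
  exact h

/-- The universal root of unity, as a unit. -/
def cycUnit (p : ℕ) [NeZero p] : (CycRing p)ˣ :=
  Units.ofPowEqOne _ p (cycRing_root_pow p) (NeZero.ne p)

@[simp]
theorem coe_cycUnit (p : ℕ) [NeZero p] :
    ((cycUnit p : (CycRing p)ˣ) : CycRing p) = AdjoinRoot.root (cyclotomic p ℤ) := rfl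

variable {A : Type*} [CommRing A]

/-- The classifying map of a root of the cyclotomic polynomial. -/
def cycLift (p : ℕ) (ξ : A) (hξ : (cyclotomic p A).eval ξ = 0) : CycRing p →+* A :=
  AdjoinRoot.lift (Int.castRingHom A) ξ (by
    rw [Polynomial.eval₂_eq_eval_map, map_cyclotomic_int]
    exact hξ)

theorem cycLift_root (p : ℕ) (ξ : A) (hξ : (cyclotomic p A).eval ξ = 0) :
    cycLift p ξ hξ (AdjoinRoot.root (cyclotomic p ℤ)) = ξ :=
  AdjoinRoot.lift_root _

theorem units_map_cycLift (p : ℕ) [NeZero p] (ξ : Aˣ) (hξ : (cyclotomic p A).eval (ξ : A) = 0) :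
    Units.map (cycLift p (ξ : A) hξ : CycRing p →* A) (cycUnit p) = ξ := by
  ext
  rw [Units.coe_map, coe_cycUnit]
  exact cycLift_root p (ξ : A) hξ

/-- Over a field of characteristic zero the classifying map of a primitive root is injective. -/
theorem cycLift_injective {L : Type*} [Field L] [CharZero L] (p : ℕ) [NeZero p] (ζ : L)
    (hζ : IsPrimitiveRoot ζ p) (h0 : (cyclotomic p L).eval ζ = 0) :
    Function.Injective (cycLift p ζ h0) := by
  rw [injective_iff_map_eq_zero]
  intro u hu
  obtain ⟨g, rfl⟩ := AdjoinRoot.mk_surjective u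
  rw [cycLift, AdjoinRoot.lift_mk] at hu
  rw [AdjoinRoot.mk_eq_zero, cyclotomic_eq_minpoly hζ (Nat.pos_of_ne_zero (NeZero.ne p))]
  refine minpoly.isIntegrallyClosed_dvd (hζ.isIntegral (Nat.pos_of_ne_zero (NeZero.ne p))) ?_
  rw [Polynomial.aeval_def]
  convert hu using 2
  exact RingHom.ext_int _ _

end Universal

section Main

variable {L : Type} [Field L] [CharZero L]

/-- **Transfer.** If the factorisation identity holds over a field `L` of characteristic zero for
a primitive `p`-th root of unity, it holds over every commutative ring `A` for every root `ξ` of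
the `p`-th cyclotomic polynomial that is a unit. -/
theorem modPolyFact_of_cyclotomic_root (p : ℕ) [NeZero p] (Φ : Polynomial (Polynomial ℤ))
    (ζ : Lˣ) (hζ : IsPrimitiveRoot (ζ : L) p) (h : ModPolyFact p Φ L ζ)
    {A : Type*} [CommRing A] (ξ : Aˣ) (hξ : (cyclotomic p A).eval (ξ : A) = 0) :
    ModPolyFact p Φ A ξ := by
  have h0 : (cyclotomic p L).eval (ζ : L) = 0 :=
    (hζ.isRoot_cyclotomic (Nat.pos_of_ne_zero (NeZero.ne p)))
  have hU : ModPolyFact p Φ (CycRing p) (cycUnit p) := by
    refine ModPolyFact.of_map_injective (cycLift p (ζ : L) h0) (cycLift_injective p _ hζ h0) ?_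
    rw [units_map_cycLift p ζ h0]
    exact h
  have := ModPolyFact.map (cycLift p (ξ : A) hξ) hU
  rwa [units_map_cycLift p ξ hξ] at this

/-- **M1b** (skeleton statement): transfer `ℂ → ℤ[ζ] → A`. -/
theorem isModPoly_of_complex (p : ℕ) (hp : p.Prime) (ζ : ℂˣ) (hζ : IsPrimitiveRoot ζ p)
    (Φ : Polynomial (Polynomial ℤ)) (hm : Φ.Monic) (hd : Φ.natDegree = p + 1)
    (h : ModPolyFact p Φ ℂ ζ) : IsModPoly p Φ := by
  have : NeZero p := ⟨hp.ne_zero⟩
  refine ⟨hm, hd, ?_⟩
  intro A _ _ ξ hξ
  refine modPolyFact_of_cyclotomic_root p Φ ζ (IsPrimitiveRoot.coe_units_iff.mpr hζ) h ξ ?_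
  exact (IsPrimitiveRoot.coe_units_iff.mpr hξ).isRoot_cyclotomic hp.pos

/-- **Integrality.** Let `L` be a field of characteristic zero, `ζ ∈ L` with `ζ ^ p = 1`, and
`Φc ∈ L[Y][X]` monic with
`Φc(X, j(q^p)) = (X - j(q^{p²})) ∏_{b<p} (X - j(ζ^b q))` in `L((q))[X]`.
Then `Φc` comes from a monic `Φ ∈ ℤ[Y][X]` of the same degree, and `ModPolyFact p Φ L ζ`. -/
theorem exists_int_of_fact (p : ℕ) [NeZero p] (ζ : Lˣ) (hζ : ζ ^ p = 1)
    (Φc : Polynomial (Polynomial L)) (hmonic : Φc.Monic)
    (h : Φc.map (Polynomial.eval₂RingHom (HahnSeries.C : L →+* LaurentSeries L) (jS L 1 p)) =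
      (X - Polynomial.C (jS L 1 (p * p))) *
        ∏ b ∈ Finset.range p, (X - Polynomial.C (jS L (ζ ^ b) 1))) :
    ∃ Φ : Polynomial (Polynomial ℤ), Φ.Monic ∧ Φ.natDegree = Φc.natDegree ∧
      Φ.map (Polynomial.mapRingHom (Int.castRingHom L)) = Φc ∧ ModPolyFact p Φ L ζ := by
  set ι : ℤ →+* L := Int.castRingHom L with hι
  -- the right-hand side is defined over `ℤ((q))`
  have hR : (X - Polynomial.C (jS L 1 (p * p))) *
      ∏ b ∈ Finset.range p, (X - Polynomial.C (jS L (ζ ^ b) 1)) ∈
        Polynomial.lifts (coeffMap ι) := by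
    refine Subsemiring.mul_mem _ ?_ ?_
    · refine (Polynomial.mem_lifts _).mpr ⟨X - Polynomial.C (jS ℤ 1 (p * p)), ?_⟩
      rw [Polynomial.map_sub, Polynomial.map_X, Polynomial.map_C, coeffMap_jS_one_left]
    · have := prod_X_sub_C_twist_mem_lifts (L := L) p ζ hζ (jqModC ℤ)
      rw [coeffMap_jqModC] at this
      convert this using 4 with b _
      exact jS_right_one _
  -- hence every coefficient of `Φc` is defined over `ℤ`
  have hcoeff : ∀ i, Φc.coeff i ∈ Polynomial.lifts ι := by
    intro i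
    refine mem_lifts_of_eval₂_mem_range ι (jS ℤ 1 p) p (Nat.pos_of_ne_zero (NeZero.ne p))
      (coeff_jS_one_pow_self p) (fun n k hk => coeff_jS_one_pow_of_lt p n hk) _ ?_
    rw [coeffMap_jS_one_left]
    have h1 := (Polynomial.lifts_iff_coeff_lifts _).mp hR i
    rw [← h, Polynomial.coeff_map] at h1
    exact h1
  have hΦc : Φc ∈ Polynomial.lifts (Polynomial.mapRingHom ι) := by
    refine (Polynomial.lifts_iff_coeff_lifts _).mpr fun i => ?_
    obtain ⟨c, hc⟩ := (Polynomial.mem_lifts _).mp (hcoeff i)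
    exact ⟨c, hc⟩
  obtain ⟨Φ, hΦ, hdeg, hΦm⟩ := Polynomial.lifts_and_natDegree_eq_and_monic hΦc hmonic
  refine ⟨Φ, hΦm, hdeg, hΦ, ?_⟩
  show evalY (jS L 1 p) Φ = _
  rw [← h, ← hΦ, Polynomial.map_map]
  unfold evalY
  rw [Polynomial.coe_mapRingHom]
  congr 1
  refine Polynomial.ringHom_ext (fun a => ?_) ?_
  · simp
  · simp

end Main

end Fermat.Agent.S28.H26
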