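/-
S28 (Igusa), package M1(d), helper26: the interface between the analytic part of M1 (a monic
polynomial `Φc ∈ ℂ[Y][X]` with the factorisation identity over `ℂ((q))`) and the exported
statement `IsModPoly p Φ` with `Φ ∈ ℤ[Y][X]`.
-/
import Fermat.Agent.S28.H26.Transfer

set_option autoImplicit false

noncomputable section

open HahnSeries ModularCurve Polynomial Fermat.Agent.S28

namespace Fermat.Agent.S28.H26

/-- From the complex factorisation identity for a monic `Φc ∈ ℂ[Y][X]` of degree `p + 1` to an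
integral modular polynomial. -/
theorem exists_isModPoly_of_complex_fact (p : ℕ) (hp : p.Prime) (ζ : ℂˣ)
    (hζ : IsPrimitiveRoot ζ p) (Φc : Polynomial (Polynomial ℂ)) (hmonic : Φc.Monic)
    (hdeg : Φc.natDegree = p + 1)
    (h : Φc.map (Polynomial.eval₂RingHom (HahnSeries.C : ℂ →+* LaurentSeries ℂ) (jS ℂ 1 p)) =
      (X - Polynomial.C (jS ℂ 1 (p * p))) *
        ∏ b ∈ Finset.range p, (X - Polynomial.C (jS ℂ (ζ ^ b) 1))) :
    ∃ Φ : Polynomial (Polynomial ℤ), IsModPoly p Φ ∧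
      Φ.map (Polynomial.mapRingHom (Int.castRingHom ℂ)) = Φc := by
  have : NeZero p := ⟨hp.ne_zero⟩
  obtain ⟨Φ, hΦm, hΦd, hΦc, hfact⟩ := exists_int_of_fact p ζ hζ.pow_eq_one Φc hmonic h
  exact ⟨Φ, isModPoly_of_complex p hp ζ hζ Φ hΦm (hΦd.trans hdeg) hfact, hΦc⟩

/-- `HasModPolys` from the complex factorisation identities (the output of the analytic part of
M1) for all primes. -/
theorem hasModPolys_of_complex
    (H : ∀ p : ℕ, p.Prime → ∃ (ζ : ℂˣ) (Φc : Polynomial (Polynomial ℂ)), IsPrimitiveRoot ζ p ∧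
      Φc.Monic ∧ Φc.natDegree = p + 1 ∧
      Φc.map (Polynomial.eval₂RingHom (HahnSeries.C : ℂ →+* LaurentSeries ℂ) (jS ℂ 1 p)) =
        (X - Polynomial.C (jS ℂ 1 (p * p))) *
          ∏ b ∈ Finset.range p, (X - Polynomial.C (jS ℂ (ζ ^ b) 1))) :
    HasModPolys := by
  intro p hp
  obtain ⟨ζ, Φc, hζ, hm, hd, h⟩ := H p hp
  obtain ⟨Φ, hΦ, -⟩ := exists_isModPoly_of_complex_fact p hp ζ hζ Φc hm hd h
  exact ⟨Φ, hΦ⟩

/-- `HasModPolys` from the skeleton statement M1a (integral `Φ` with the factorisation over `ℂ`). -/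
theorem hasModPolys_of_modPolyFact_complex
    (H : ∀ p : ℕ, p.Prime → ∃ (ζ : ℂˣ) (Φ : Polynomial (Polynomial ℤ)), IsPrimitiveRoot ζ p ∧
      Φ.Monic ∧ Φ.natDegree = p + 1 ∧ ModPolyFact p Φ ℂ ζ) :
    HasModPolys := by
  intro p hp
  obtain ⟨ζ, Φ, hζ, hm, hd, h⟩ := H p hp
  exact ⟨Φ, isModPoly_of_complex p hp ζ hζ Φ hm hd h⟩

end Fermat.Agent.S28.H26
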