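/-
S28 / M1 (final): existence of the modular polynomials, `hasModPolys : HasModPolys`.

Glue of
* M1ab (helper23): `H23.exists_modPolyC` — the complex modular equation in `ℂ((q))[X]`;
* M1d (helper26): `H26.hasModPolys_of_complex` — integrality of the coefficients and the
  transfer `ℂ → ℤ[ζ] → A` to every domain with a primitive `p`-th root of unity.
-/
import Mathlib
import Fermat.Agent.S28.Defs
import Fermat.Agent.S28.H26.Final
import Fermat.Agent.S28.H23.ModEqFormal

namespace Fermat.Agent.S28

/-- **M1**: for every prime `p` there is a modular polynomial `Φ_p ∈ ℤ[X, Y]`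
(in the sense of `IsModPoly`). -/
theorem hasModPolys : HasModPolys :=
  H26.hasModPolys_of_complex H23.exists_modPolyC

end Fermat.Agent.S28
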